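import Fermat.Agent.ES.Local.Exact
import Fermat.Agent.ES.Local.Approx
import Fermat.Agent.ES.Local.Cusp
import Fermat.Agent.ES.Forms.Multiplier

/-!
# Multipliers are detected modulo primes

A form with multiplier `φ` of order prime to `ℓ` congruent, at a place over `ℓ`, to a form with
trivial multiplier and nonzero reduction, has trivial multiplier.
-/

set_option autoImplicit false

open UpperHalfPlane CongruenceSubgroup
open scoped MatrixGroups ModularForm Manifold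

noncomputable section

namespace FermatAgent.ES

variable {ℓ : ℕ} {P : CPlace ℓ}

/-- A series with unit leading coefficient has a unit coefficient. -/
theorem LeadUnit.unitCoeff {s : LaurentSeries ℂ} {k : ℤ} (h : LeadUnit P.ring s k) :
    P.UnitCoeff s := ⟨k, P.abv_eq_one_of_unitIn h.unitIn_coeff⟩

/-- A root congruent to a given one, up to a root of unity. -/
theorem exists_root_of_unity_congr {n : ℕ} [NeZero n] (hn : n.Coprime ℓ) {a b : LaurentSeries ℂ}
    (ha : SerIn P.ring a) (hb : SerIn P.ring b) (h : P.SerLT (a ^ n - b ^ n)) :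
    ∃ ω : ℂ, ω ^ n = 1 ∧ P.SerLT (HahnSeries.C ω * a - b) := by
  classical
  have hz := P.goodRoot hn
  have hprim : IsPrimitiveRoot (HahnSeries.C (zetaC n) : LaurentSeries ℂ) n :=
    hz.prim.map_of_injective HahnSeries.C_injective
  rw [hprim.pow_sub_pow_eq_prod_sub_mul a b (Nat.pos_of_ne_zero (NeZero.ne n))] at h
  have hin : ∀ w ∈ Polynomial.nthRootsFinset n (1 : LaurentSeries ℂ),
      ∃ ω : ℂ, ω ^ n = 1 ∧ w = HahnSeries.C ω := fun w hw => by
    obtain ⟨i, -, hi⟩ := hprim.eq_pow_of_pow_eq_one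
      ((Polynomial.mem_nthRootsFinset (Nat.pos_of_ne_zero (NeZero.ne n)) (1 : _)).mp hw)
    exact ⟨zetaC n ^ i, by rw [← pow_mul, mul_comm, pow_mul, hz.prim.pow_eq_one, one_pow],
      by rw [map_pow, hi]⟩
  have hSin : ∀ w ∈ Polynomial.nthRootsFinset n (1 : LaurentSeries ℂ),
      SerIn P.ring (a - w * b) := fun w hw => by
    obtain ⟨ω, hω, rfl⟩ := hin w hw
    exact ha.sub ((SerIn.C (P.abv_eq_one_of_pow_eq_one (NeZero.ne n) hω).le).mul hb)
  obtain ⟨w, hw, hlt⟩ : ∃ w ∈ Polynomial.nthRootsFinset n (1 : LaurentSeries ℂ),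
      P.SerLT (a - w * b) := by
    by_contra hall
    push Not at hall
    refine h.not_unitCoeff ?_
    suffices key : ∀ S : Finset (LaurentSeries ℂ), S ⊆ Polynomial.nthRootsFinset n 1 →
        SerIn P.ring (∏ w ∈ S, (a - w * b)) ∧ P.UnitCoeff (∏ w ∈ S, (a - w * b)) from
      (key _ subset_rfl).2
    intro S
    induction S using Finset.induction_on with
    | empty => exact fun _ => ⟨by simpa using SerIn.one, ⟨0, by simp⟩⟩
    | insert w S hwS ih =>
      intro hsub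
      obtain ⟨h1, h2⟩ := ih ((Finset.subset_insert w S).trans hsub)
      have hw := hsub (Finset.mem_insert_self w S)
      rw [Finset.prod_insert hwS]
      refine ⟨(hSin w hw).mul h1, CPlace.UnitCoeff.mul (hSin w hw) h1 ?_ h2⟩
      by_contra hno
      exact hall w hw (CPlace.serLT_of_not_unitCoeff (hSin w hw) hno)
  obtain ⟨ω, hω, rfl⟩ := hin w hw
  have hω1 := P.abv_eq_one_of_pow_eq_one (NeZero.ne n) hω
  have hω0 : ω ≠ 0 := fun h0 => by rw [h0, map_zero] at hω1; exact zero_ne_one hω1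
  refine ⟨ω⁻¹, by rw [inv_pow, hω, inv_one], ?_⟩
  rw [show HahnSeries.C ω⁻¹ * a - b = (a - HahnSeries.C ω * b) * HahnSeries.C ω⁻¹ by
    rw [sub_mul, mul_comm (HahnSeries.C ω) b, mul_assoc, ← map_mul, mul_inv_cancel₀ hω0, map_one,
      mul_one, mul_comm a]]
  exact hlt.mul_serIn (SerIn.C (by rw [P.mem_ring, map_inv₀, hω1, inv_one]))

/-- Coefficientwise bounds on a power series hold for its Laurent series. -/
private theorem coeff_ofPowerSeries_mem {c : PowerSeries ℂ} {Q : ℂ → Prop} (h0 : Q 0)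
    (hc : ∀ i, Q (PowerSeries.coeff i c)) (i : ℤ) :
    Q ((HahnSeries.ofPowerSeries ℤ ℂ c).coeff i) := by
  rcases le_or_gt 0 i with hi | hi
  · lift i to ℕ using hi
    rw [HahnSeries.ofPowerSeries_apply_coeff]; exact hc i
  · rw [HahnSeries.ofPowerSeries_apply, HahnSeries.embDomain_of_notMem_range]
    · exact h0
    · rintro ⟨q, hq⟩; simp at hq; omega

variable {M m : ℕ} [NeZero M] (haux : AuxLevel M m)

/-- The expansion at the cusp `γ` of the auxiliary form of weight two. -/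
def auxSer (γ : SL(2, ℤ)) : LaurentSeries ℂ :=
  difLaurent M (zetaC M) (vmul M (refB haux.dvd) γ) (vmul M (refA haux.dvd) γ)

include haux

/-- The auxiliary series has a unit leading coefficient. -/
theorem exists_leadUnit_auxSer {A : Subring ℂ} (hA : GoodRoot M A (zetaC M)) (γ : SL(2, ℤ)) :
    ∃ k, LeadUnit A (auxSer haux γ) k := by
  have hadm := (adm_ref haux).mul γ
  exact ⟨_, leadUnit_difLaurent hA hadm.left hadm.right hadm.ne hadm.ne_neg⟩

/-- The expansion of the function attached to a form. -/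
theorem hasLExp_form_div {j : ℕ} {f : ℍ → ℂ} {γ : SL(2, ℤ)} {c : PowerSeries ℂ}
    (hc : HasExp M (f ∣[((2 * j : ℕ) : ℤ)] γ) c) :
    HasLExp M (act γ fun τ => f τ / auxW haux τ ^ j)
      (HahnSeries.ofPowerSeries ℤ ℂ c * (auxSer haux γ ^ j)⁻¹) := by
  have hadm := (adm_ref haux).mul γ
  obtain ⟨k, hk⟩ := exists_leadUnit_auxSer haux (A := ⊤) zetaC_goodRoot_top γ
  refine ((HasLExp.of_exp hc).mul (((hasLExp_dif (M := M) hadm.left hadm.right).pow j).inv
    (fun τ => pow_ne_zero _ (hadm.dif_ne_zero τ)) (pow_ne_zero _ hk.ne_zero))).congr_fun fun τ => ?_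
  simp only [act_apply, Pi.mul_apply, Pi.inv_apply, Pi.pow_apply, ModularForm.SL_slash_apply,
    auxW, dif_smul, mul_pow, ← pow_mul, zpow_neg, zpow_natCast]
  field_simp

variable {Γ : Subgroup SL(2, ℤ)} (hΓ : Gamma M ≤ Γ) {n : ℕ} [NeZero n] {j : ℕ}
  {φ : Γ →* ℂˣ} {v : ℍ → ℂ}
include hΓ

omit [NeZero n] in
/-- The `n`-th power of a form with multiplier, as a function. -/
theorem pow_form_mem (hφn : φ ^ n = 1) (hv : IsTwist Γ ((2 * j : ℕ) : ℤ) φ v) :
    (fun τ => v τ / auxW haux τ ^ j) ^ n ∈ BSub M := by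
  have h := hv.pow n
  rw [hφn, show (n : ℤ) * ((2 * j : ℕ) : ℤ) = ((2 * (j * n) : ℕ) : ℤ) by push_cast; ring] at h
  have h2 := form_div_mem haux hΓ h
  convert h2 using 1
  funext τ
  simp only [Pi.pow_apply, div_pow, ← pow_mul]

omit [NeZero n] hΓ in
/-- The zeros of the `n`-th power of the function of a form have orders divisible by `n`. -/
theorem vanishOrd_pow_form (hφn : φ ^ n = 1) (hv : IsTwist Γ ((2 * j : ℕ) : ℤ) φ v) (τ : ℍ)
    (i : ℕ) (h : vanishOrd ((fun τ => v τ / auxW haux τ ^ j) ^ n) τ = i) : n ∣ i := by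
  have hmd : MDiff fun τ => v τ / auxW haux τ ^ j := by
    have hW : MDiff (auxW haux) :=
      (hasLExp_dif (M := M) (adm_ref haux).left (adm_ref haux).right).mdifferentiable
    have h1 := UpperHalfPlane.mdifferentiable_iff.mp hv.mdiff
    have h2 := UpperHalfPlane.mdifferentiable_iff.mp hW
    rw [UpperHalfPlane.mdifferentiable_iff]
    exact h1.div (h2.pow j) fun z _ => pow_ne_zero _ (auxW_ne_zero haux _)
  rw [vanishOrd_pow hmd] at h
  rcases eq_or_ne n 0 with rfl | hn0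
  · rw [zero_smul] at h
    exact dvd_of_eq (by exact_mod_cast h)
  obtain ⟨k, hk⟩ : ∃ k : ℕ, vanishOrd (fun τ => v τ / auxW haux τ ^ j) τ = k := by
    rcases eq_or_ne (vanishOrd (fun τ => v τ / auxW haux τ ^ j) τ) ⊤ with htop | htop
    · rw [htop, nsmul_eq_mul, ENat.mul_top (by exact_mod_cast hn0)] at h
      exact absurd h.symm (ENat.natCast_ne_top i)
    · obtain ⟨k, hk⟩ := ENat.ne_top_iff_exists.mp htop
      exact ⟨k, hk.symm⟩
  rw [hk, nsmul_eq_mul, ← Nat.cast_mul, Nat.cast_inj] at h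
  exact ⟨k, h.symm⟩

omit [NeZero n] in
/-- The data of the functions attached to forms with integral expansion at `∞`. -/
theorem form_div_mem_BRing (hM : M.Coprime ℓ) (hφn : φ ^ n = 1)
    (hv : IsTwist Γ ((2 * j : ℕ) : ℤ) φ v) {c : PowerSeries ℂ} (hc : HasExp M v c)
    (hci : ∀ i, PowerSeries.coeff i c ∈ P.ring) :
    (fun τ => v τ / auxW haux τ ^ j) ^ n ∈ BRing M P.ring ∧
      lexp M 1 ((fun τ => v τ / auxW haux τ ^ j) ^ n) =
        (HahnSeries.ofPowerSeries ℤ ℂ c * (auxSer haux 1 ^ j)⁻¹) ^ n ∧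
      SerIn P.ring (HahnSeries.ofPowerSeries ℤ ℂ c * (auxSer haux 1 ^ j)⁻¹) := by
  obtain ⟨k, hk⟩ := exists_leadUnit_auxSer haux (P.goodRoot hM) 1
  have hin : SerIn P.ring (HahnSeries.ofPowerSeries ℤ ℂ c * (auxSer haux 1 ^ j)⁻¹) := by
    exact SerIn.mul (coeff_ofPowerSeries_mem (Q := (· ∈ P.ring)) P.ring.zero_mem hci)
      (hk.pow j).inv.serIn
  have hc1 : HasExp M (v ∣[((2 * j : ℕ) : ℤ)] (1 : SL(2, ℤ))) c := by
    rwa [SlashAction.slash_one]
  have he : lexp M 1 ((fun τ => v τ / auxW haux τ ^ j) ^ n) =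
      (HahnSeries.ofPowerSeries ℤ ℂ c * (auxSer haux 1 ^ j)⁻¹) ^ n :=
    lexp_eq ((hasLExp_form_div haux hc1).pow n |>.congr_fun fun τ => by simp)
  refine ⟨Curve.Red.mem_BRing_of_serIn P haux hM (pow_form_mem haux hΓ hφn hv) ?_, he, hin⟩
  rw [he]
  exact hin.pow n

omit [NeZero n] hΓ in
/-- Congruences between elements of the ring hold at every cusp. -/
private theorem serLT_lexp_sub (hM : M.Coprime ℓ) {f g : BRing M P.ring}
    (hfg : f - g ∈ maxSmall P) (γ : SL(2, ℤ)) :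
    P.SerLT (lexp M γ (f : ℍ → ℂ) - lexp M γ (g : ℍ → ℂ)) := by
  have h : P.SerLT (lexp M γ ((f - g : BRing M P.ring) : ℍ → ℂ)) :=
    fun k => Curve.Red.coeff_mem_maxBall P haux hM (f - g).2 hfg γ k
  rwa [AddSubgroupClass.coe_sub, Curve.Red.lexp_sub f.2.1 g.2.1] at h

omit [NeZero n] haux hΓ in
/-- Expansions at the cusps commute with powers. -/
private theorem lexp_pow_BRing (G : BRing M P.ring) (γ : SL(2, ℤ)) :
    lexp M γ ((G : ℍ → ℂ) ^ n) = lexp M γ (G : ℍ → ℂ) ^ n :=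
  lexp_eq (((hasLExp_lexp G.2.1 γ).pow n).congr_fun fun τ => by simp)

omit hΓ in
/-- Roots of `y` at all cusps congruent to `G`, with a given one at `∞`. -/
private theorem exists_congr_roots (hP : P.HasCDVRs) (hM : M.Coprime ℓ) (hn : n.Coprime ℓ)
    {y G : BRing M P.ring} (hy0 : (y : ℍ → ℂ) ≠ 0)
    (hord : ∀ τ (i : ℕ), vanishOrd (y : ℍ → ℂ) τ = i → n ∣ i) (hyG : y - G ^ n ∈ maxSmall P)
    (hyu : P.UnitCoeff (infExp P y)) {s : SL(2, ℤ) → LaurentSeries ℂ}
    (hspow : ∀ γ, s γ ^ n = lexp M γ (y : ℍ → ℂ)) {s₁ : LaurentSeries ℂ}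
    (hs₁ : SerIn P.ring s₁) (hs₁y : s₁ ^ n = infExp P y) (hs₁G : P.SerLT (s₁ - infExp P G)) :
    ∃ ser : SL(2, ℤ) → LaurentSeries ℂ, ser 1 = s₁ ∧ (∀ γ, SerIn P.ring (ser γ)) ∧
      (∀ γ, ser γ ^ n = lexp M γ (y : ℍ → ℂ)) ∧
      ∀ γ, P.SerLT (ser γ - lexp M γ (G : ℍ → ℂ)) := by
  classical
  have hunit : ∀ γ, P.UnitCoeff (lexp M γ (y : ℍ → ℂ)) := fun γ => by
    have := unitCoeff_act P haux hM hyu γ
    rw [infExp_apply, lexp_act, mul_one] at this
    exact this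
  have hsin : ∀ γ, SerIn P.ring (s γ) := fun γ =>
    serIn_root_of_unitCoeff haux hM hP hn y hy0 hord γ (hspow γ) (hunit γ)
  have hω : ∀ γ, ∃ ω : ℂ, ω ^ n = 1 ∧
      P.SerLT (HahnSeries.C ω * s γ - lexp M γ (G : ℍ → ℂ)) := by
    intro γ
    refine exists_root_of_unity_congr hn (hsin γ) (G.2.2 γ) ?_
    have h := serLT_lexp_sub haux hM hyG γ
    rwa [SubmonoidClass.coe_pow, lexp_pow_BRing, ← hspow γ] at h
  choose ω hω1 hωG using hω
  refine ⟨fun γ => if γ = 1 then s₁ else HahnSeries.C (ω γ) * s γ, if_pos rfl, fun γ => ?_,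
    fun γ => ?_, fun γ => ?_⟩ <;> dsimp only <;> split_ifs with h
  · exact hs₁
  · exact (SerIn.C (P.abv_eq_one_of_pow_eq_one (NeZero.ne n) (hω1 γ)).le).mul (hsin γ)
  · rw [h, hs₁y, infExp_apply]
  · rw [mul_pow, ← map_pow, hω1, map_one, one_mul, hspow]
  · rw [h, ← infExp_apply]; exact hs₁G
  · exact hωG γ

omit hΓ in
/-- Congruent roots at all cusps are the expansions of a modular function. -/
private theorem exists_mem_BSub_of_congr_roots (hP : P.HasCDVRs) (hM : M.Coprime ℓ)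
    (hn : n.Coprime ℓ) {y G : BRing M P.ring} (hy0 : (y : ℍ → ℂ) ≠ 0)
    (hord : ∀ τ (i : ℕ), vanishOrd (y : ℍ → ℂ) τ = i → n ∣ i) (hyG : y - G ^ n ∈ maxSmall P)
    (hGu : P.UnitCoeff (infExp P G)) {ser : SL(2, ℤ) → LaurentSeries ℂ}
    (hser_in : ∀ γ, SerIn P.ring (ser γ)) (hser_pow : ∀ γ, ser γ ^ n = lexp M γ (y : ℍ → ℂ))
    (hser_G : ∀ γ, P.SerLT (ser γ - lexp M γ (G : ℍ → ℂ))) :
    ∃ z ∈ BSub M, lexp M 1 z = ser 1 :=
  exists_mem_BSub_of_approx haux hM ser fun e he he1 => by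
    obtain ⟨h, hhG, hhn⟩ := exists_approx_root P haux hM hP hn he he1 hy0 hord hyG hGu
    refine ⟨h, h.2, fun γ => ?_⟩
    have hlt : P.SerLT (lexp M γ (h : ℍ → ℂ) - ser γ) := by
      rw [show lexp M γ (h : ℍ → ℂ) - ser γ = (lexp M γ (h : ℍ → ℂ) - lexp M γ (G : ℍ → ℂ)) -
        (ser γ - lexp M γ (G : ℍ → ℂ)) by abel]
      exact (serLT_lexp_sub haux hM hhG γ).sub (hser_G γ)
    have hu : P.UnitCoeff (ser γ) := by
      have hGγ : P.UnitCoeff (lexp M γ (G : ℍ → ℂ)) := by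
        have := unitCoeff_act P haux hM hGu γ
        rwa [infExp_apply, lexp_act, mul_one] at this
      refine CPlace.UnitCoeff.of_serLE_sub hGγ ?_ (hser_in γ)
      rw [← neg_sub]; exact (hser_G γ).neg
    refine CPlace.SerLE.of_pow_sub_pow he.le hn (h.2.2 γ) (hser_in γ) hlt hu fun k => ?_
    rw [hser_pow]
    have h2 := Curve.Red.abv_coeff_le P haux hM (h ^ n - y).2.1 he.le hhn γ k
    rw [AddSubgroupClass.coe_sub, SubmonoidClass.coe_pow,
      Curve.Red.lexp_sub (pow_mem h.2.1 n) y.2.1, lexp_pow_BRing] at h2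
    exact h2

omit [NeZero M] [NeZero n] haux hΓ in
/-- A root of unity of order prime to `ℓ` fixing a unit series modulo `ℓ` is one. -/
private theorem eq_one_of_serLT_mul [NeZero n] (hn : n.Coprime ℓ) {x : ℂ} (hx : x ^ n = 1)
    {cs : LaurentSeries ℂ} (hcu : P.UnitCoeff cs)
    (h : P.SerLT ((HahnSeries.C x - 1) * cs)) : x = 1 := by
  by_contra hne
  obtain ⟨i, -, hi⟩ := (P.goodRoot hn).prim.eq_pow_of_pow_eq_one hx
  have hui : UnitIn P.ring (1 - zetaC n ^ i) := (P.goodRoot hn).unit_one_sub i fun hdvd => hne (by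
    obtain ⟨q, rfl⟩ := hdvd
    rw [← hi, pow_mul, (P.goodRoot hn).prim.pow_eq_one, one_pow])
  refine h.not_unitCoeff ?_
  obtain ⟨k, hk⟩ := hcu
  refine ⟨k, ?_⟩
  rw [← map_one HahnSeries.C, ← map_sub, HahnSeries.C_apply, HahnSeries.coeff_single_mul, sub_zero,
    map_mul, hk, mul_one, ← hi, P.abv.map_sub]
  exact P.abv_eq_one_of_unitIn hui

omit hΓ in
/-- The multiplier is one at `γ` when `v / w ^ j` and `g / w ^ j` are congruent. -/
private theorem apply_eq_one (hn : n.Coprime ℓ) (hM : M.Coprime ℓ) (hφn : φ ^ n = 1)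
    (hv : IsTwist Γ ((2 * j : ℕ) : ℤ) φ v) {g : ℍ → ℂ}
    (hg : IsTwist Γ ((2 * j : ℕ) : ℤ) 1 g) {c d : PowerSeries ℂ} (hc : HasExp M v c)
    (hd : HasExp M g d)
    (hclt : P.SerLT (HahnSeries.ofPowerSeries ℤ ℂ c - HahnSeries.ofPowerSeries ℤ ℂ d))
    (hcu : P.UnitCoeff (HahnSeries.ofPowerSeries ℤ ℂ c)) {Z G : BRing M P.ring}
    (hZ : (Z : ℍ → ℂ) = fun τ => v τ / auxW haux τ ^ j)
    (hG : (G : ℍ → ℂ) = fun τ => g τ / auxW haux τ ^ j) (hZG : Z - G ∈ maxSmall P) (γ : Γ) :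
    φ γ = 1 := by
  set cs := HahnSeries.ofPowerSeries ℤ ℂ c
  set ds := HahnSeries.ofPowerSeries ℤ ℂ d
  have hgam := serLT_lexp_sub haux hM hZG (γ : SL(2, ℤ))
  set Wγ := (auxSer haux (γ : SL(2, ℤ)) ^ j)⁻¹ with hWγ
  have e1 : lexp M (γ : SL(2, ℤ)) (Z : ℍ → ℂ) = HahnSeries.C ((φ γ : ℂˣ) : ℂ) * cs * Wγ := by
    rw [hZ]
    refine lexp_eq ?_
    have h := hasLExp_form_div haux (f := v) (γ := (γ : SL(2, ℤ))) (j := j)
      (c := PowerSeries.C ((φ γ : ℂˣ) : ℂ) * c) (by rw [hv.slash γ]; exact hc.smul _)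
    rwa [map_mul, HahnSeries.ofPowerSeries_C] at h
  have e2 : lexp M (γ : SL(2, ℤ)) (G : ℍ → ℂ) = ds * Wγ := by
    rw [hG]
    refine lexp_eq ?_
    exact hasLExp_form_div haux (f := g) (γ := (γ : SL(2, ℤ))) (j := j) (c := d) (by
      rw [hg.slash γ]; simpa using hd)
  rw [e1, e2, ← sub_mul] at hgam
  obtain ⟨kγ, hkγ⟩ := exists_leadUnit_auxSer haux (P.goodRoot hM) (γ : SL(2, ℤ))
  have h1 := hgam.mul_serIn (hkγ.pow j).serIn
  rw [mul_assoc, hWγ, inv_mul_cancel₀ (pow_ne_zero _ hkγ.ne_zero), mul_one] at h1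
  apply Units.ext
  rw [Units.val_one]
  refine eq_one_of_serLT_mul hn (P := P)
    (by rw [← Units.val_pow_eq_pow_val, ← MonoidHom.pow_apply, hφn]; rfl) hcu ?_
  rw [show (HahnSeries.C ((φ γ : ℂˣ) : ℂ) - 1) * cs =
    (HahnSeries.C ((φ γ : ℂˣ) : ℂ) * cs - ds) - (cs - ds) by ring]
  exact h1.sub hclt

/-- **Multipliers are detected modulo primes.** -/
theorem mult_eq_one (hP : P.HasCDVRs) (hM : M.Coprime ℓ) (hn : n.Coprime ℓ) (hφn : φ ^ n = 1)
    (hφ : IsParChar Γ φ) (hv : IsTwist Γ ((2 * j : ℕ) : ℤ) φ v) {g : ℍ → ℂ}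
    (hg : IsTwist Γ ((2 * j : ℕ) : ℤ) 1 g) {c d : PowerSeries ℂ} (hc : HasExp M v c)
    (hd : HasExp M g d) (hci : ∀ i, PowerSeries.coeff i c ∈ P.ring)
    (hdi : ∀ i, PowerSeries.coeff i d ∈ P.ring)
    (hcd : ∀ i, P.abv (PowerSeries.coeff i c - PowerSeries.coeff i d) < 1)
    (hd1 : ∃ i, P.abv (PowerSeries.coeff i d) = 1) : φ = 1 := by
  classical
  have hA := P.goodRoot hM
  obtain ⟨kW, hkW⟩ := exists_leadUnit_auxSer haux hA 1
  set w := (auxSer haux 1 ^ j)⁻¹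
  set cs := HahnSeries.ofPowerSeries ℤ ℂ c with hcs
  set ds := HahnSeries.ofPowerSeries ℤ ℂ d with hds
  obtain ⟨hyR, hye, hs1⟩ := form_div_mem_BRing haux hΓ (P := P) hM hφn hv hc hci
  obtain ⟨hGR0, hGe0, hG1⟩ :=
    form_div_mem_BRing haux hΓ (P := P) (n := 1) hM (pow_one (1 : Γ →* ℂˣ)) hg hd hdi
  rw [pow_one] at hGR0 hGe0
  set h0 : ℍ → ℂ := fun τ => v τ / auxW haux τ ^ j
  set G : BRing M P.ring := ⟨_, hGR0⟩
  set y : BRing M P.ring := ⟨h0 ^ n, hyR⟩
  have hGinf : infExp P G = ds * w := by rw [infExp_apply]; simpa using hGe0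
  have hclt : P.SerLT (cs - ds) := by
    rw [hcs, hds, ← map_sub]
    exact coeff_ofPowerSeries_mem (Q := fun x => P.abv x < 1) (by simp)
      fun i => by rw [map_sub]; exact hcd i
  have hs1G : P.SerLT (cs * w - ds * w) := by
    rw [← sub_mul]; exact hclt.mul_serIn (hkW.pow j).inv.serIn
  have hdsin : SerIn P.ring ds := coeff_ofPowerSeries_mem (Q := (· ∈ P.ring)) P.ring.zero_mem hdi
  have hdsu : P.UnitCoeff ds := by
    obtain ⟨i, hi⟩ := hd1
    exact ⟨i, by rw [hds, HahnSeries.ofPowerSeries_apply_coeff]; exact hi⟩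
  have hGu : P.UnitCoeff (infExp P G) := by
    rw [hGinf]
    exact CPlace.UnitCoeff.mul hdsin (hkW.pow j).inv.serIn hdsu
      (LeadUnit.unitCoeff (hkW.pow j).inv)
  have hyG : y - G ^ n ∈ maxSmall P := by
    rw [mem_maxSmall, map_sub, map_pow, show infExp P y = (cs * w) ^ n from hye, hGinf]
    exact hs1G.pow_sub_pow hs1 (hGinf ▸ serIn_infExp P G) n
  have hyu : P.UnitCoeff (infExp P y) := by
    refine CPlace.UnitCoeff.of_serLE_sub (s := infExp P G ^ n)
      (CPlace.UnitCoeff.pow (serIn_infExp P G) hGu n) ?_ (serIn_infExp P y)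
    rw [← neg_sub, ← map_pow, ← map_sub]
    exact (show P.SerLT (infExp P (y - G ^ n)) from hyG).neg
  have hy0 : (y : ℍ → ℂ) ≠ 0 := fun h => by
    rw [show y = 0 from Subtype.ext h, map_zero] at hyu
    obtain ⟨i, hi⟩ := hyu
    simp at hi
  have hord : ∀ τ (i : ℕ), vanishOrd (y : ℍ → ℂ) τ = i → n ∣ i :=
    fun τ i => vanishOrd_pow_form haux hφn hv τ i
  -- `v / w^j` itself is modular of level `M`
  obtain ⟨ser, hser1, hser_in, hser_pow, hser_G⟩ :=
    exists_congr_roots haux hP hM hn hy0 hord hyG hyu (s := fun γ =>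
      HahnSeries.ofPowerSeries ℤ ℂ (qExpansion (M : ℝ) (v ∣[((2 * j : ℕ) : ℤ)] γ)) *
        (auxSer haux γ ^ j)⁻¹)
      (fun γ => (lexp_eq (((hasLExp_form_div haux (hasExp_slash_twist hΓ hφ hv γ)).pow n).congr_fun
        fun τ => by simp [y, h0])).symm)
      hs1 hye.symm (hGinf ▸ hs1G)
  obtain ⟨z, hz, hz1⟩ :=
    exists_mem_BSub_of_congr_roots haux hP hM hn hy0 hord hyG hGu hser_in hser_pow hser_G
  rw [hser1] at hz1
  have hzh : z = h0 := by
    have hL1 : HasLExp M z (cs * w) := by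
      have := hasLExp_lexp hz 1
      rwa [act_one, hz1] at this
    have hL2 : HasLExp M h0 (cs * w) := by
      have := hasLExp_form_div haux (f := v) (γ := 1) (j := j) (c := c)
        (by rwa [SlashAction.slash_one])
      rwa [act_one] at this
    exact hL1.eq_of_series hL2
  subst hzh
  set Z : BRing M P.ring :=
    ⟨h0, Curve.Red.mem_BRing_of_serIn P haux hM hz (by rw [hz1]; exact hs1)⟩
  have hZG : Z - G ∈ maxSmall P := by
    rw [mem_maxSmall, map_sub, hGinf, infExp_apply]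
    rw [show lexp M 1 (Z : ℍ → ℂ) = cs * w from hz1]
    exact hs1G
  refine MonoidHom.ext fun γ => ?_
  refine apply_eq_one haux hn hM hφn hv hg hc hd hclt ?_ (Z := Z) (G := G) rfl rfl hZG γ
  refine CPlace.UnitCoeff.of_serLE_sub hdsu ?_
    (coeff_ofPowerSeries_mem (Q := (· ∈ P.ring)) P.ring.zero_mem hci)
  rw [← neg_sub]; exact hclt.neg

end FermatAgent.ES
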