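import Mathlib.LinearAlgebra.Matrix.SpecialLinearGroup

/-!
# A subgroup of `SL₂(ℤ)` enlarged by the sign
-/

set_option autoImplicit false

open scoped MatrixGroups

namespace FermatAgent.ES

/-- `±H`. -/
def pmSub (H : Subgroup SL(2, ℤ)) : Subgroup SL(2, ℤ) where
  carrier := {g | g ∈ H ∨ -g ∈ H}
  one_mem' := Or.inl H.one_mem
  mul_mem' {a b} ha hb := by
    rcases ha with ha | ha <;> rcases hb with hb | hb
    · exact Or.inl (mul_mem ha hb)
    · exact Or.inr (by simpa using mul_mem ha hb)
    · exact Or.inr (by simpa using mul_mem ha hb)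
    · exact Or.inl (by simpa using mul_mem ha hb)
  inv_mem' {a} ha := by
    rcases ha with ha | ha
    · exact Or.inl (inv_mem ha)
    · refine Or.inr ?_
      have h := inv_mem ha
      rwa [show (-a)⁻¹ = -a⁻¹ from inv_eq_of_mul_eq_one_right (by simp)] at h

/-- `H ≤ ±H`. -/
lemma le_pmSub (H : Subgroup SL(2, ℤ)) : H ≤ pmSub H := fun _ h => Or.inl h

end FermatAgent.ES
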